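import Mathlib
import Fermat.Agent.S05.Bridge

/-!
# S13: common abbreviations (owner: helper24, chief architect of S13).

`Qb = ℚ̄`, `Gal = Gal(ℚ̄/ℚ)`, `freyQb P` = the Frey curve over `ℚ̄` (all from S05).
All S13 interface statements are about plain points `Q : (freyQb P).Point` with `P.p • Q = 0`.
-/

set_option autoImplicit false

namespace Fermat.Agent.S13

/-- `ℚ̄`. -/
abbrev Qb : Type := AlgebraicClosure ℚ

/-- The absolute Galois group of `ℚ`. -/
abbrev Gal : Type := Qb ≃ₐ[ℚ] Qb

end Fermat.Agent.S13
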